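import Mathlib
import Fermat.Prelude.Def_CuspForm_HeckeGaloisRepDatum
import Fermat.Agent.Lib.TraceRigidity.Points

/-!
# S31: reduction to existence (owner: helper62)

`S31` (the representation of a Hecke–Galois datum is unramified outside `S`) is reduced to

* `F3.FrobDensityLite` (Frobenius density, existence form),
* the frozen statement of `S30` (existence of Galois representations over discrete valuation
  rings), taken as a hypothesis `S30Statement`,
* the fact that the points of `T` in complete discrete valuation rings of characteristic zero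
  with finite residue field separate the elements of `T` (semisimplicity of the Hecke algebra).

No frozen constant is used: `S30Statement` is a definition with the same type.
-/

namespace Fermat.Agent.S31

open Polynomial Fermat.Agent.F3 Fermat.Agent.TraceRigidity

/-- The frozen statement of S30, as a proposition. -/
def S30Statement : Prop :=
  ∀ (p : ℕ) [Fact p.Prime] (N : ℕ) [NeZero N] (S : Finset ℕ)
    (_hpS : p ∈ S) (_hNS : ∀ q : ℕ, q.Prime → q ∣ N → q ∈ S)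
    (𝒪' : Type) [CommRing 𝒪'] [IsDomain 𝒪'] [IsDiscreteValuationRing 𝒪']
    [IsAdicComplete (IsLocalRing.maximalIdeal 𝒪') 𝒪'] [Finite (IsLocalRing.ResidueField 𝒪')]
    [CharZero 𝒪'] (_hp𝒪' : (p : 𝒪') ∈ IsLocalRing.maximalIdeal 𝒪')
    (χ : CuspForm.heckeAlgebra N 2 (↑S : Set ℕ) →+* 𝒪'),
    ∃ (𝒪'' : Type) (_ : CommRing 𝒪'') (_ : IsDomain 𝒪'') (_ : IsDiscreteValuationRing 𝒪'')
      (_ : IsAdicComplete (IsLocalRing.maximalIdeal 𝒪'') 𝒪'')
      (_ : Finite (IsLocalRing.ResidueField 𝒪'')) (_ : CharZero 𝒪'')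
      (_ : Algebra 𝒪' 𝒪'') (_ : Module.Finite 𝒪' 𝒪'') (_ : IsLocalHom (algebraMap 𝒪' 𝒪'')),
    Function.Injective (algebraMap 𝒪' 𝒪'') ∧
    ∃ ρ : GaloisRepAdic 𝒪'',
      (∀ (ℓ : ℕ) (hℓ : ℓ.Prime) (hℓN : ¬ ℓ ∣ N) (hℓS : ℓ ∉ (↑S : Set ℕ)),
        ∀ A : ValuationSubring (AlgebraicClosure ℚ), A.LiesOverPrime ℓ →
          ∀ σ : AlgebraicClosure ℚ ≃ₐ[ℚ] AlgebraicClosure ℚ, A.IsFrobeniusAt σ ℓ →
            LinearMap.charpoly (ρ.ρ σ) =
              X ^ 2 - C (algebraMap 𝒪' 𝒪'' (χ (CuspForm.heckeAlgebra.T hℓ hℓN hℓS))) * X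
                + C ((ℓ : 𝒪''))) ∧
      (∀ q : ℕ, q.Prime → ¬ q ∣ N → q ≠ p → ρ.IsUnramifiedAt q)

/-- A point of `T` in a complete discrete valuation ring of characteristic zero with finite
residue field of residue characteristic `p`. -/
structure DVRPoint (p : ℕ) (T : Type) [CommRing T] [IsLocalRing T] : Type 1 where
  /-- the target ring -/
  O : Type
  [instCommRing : CommRing O]
  [instIsDomain : IsDomain O]
  [instDVR : IsDiscreteValuationRing O]
  [instComplete : IsAdicComplete (IsLocalRing.maximalIdeal O) O]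
  [instFinite : Finite (IsLocalRing.ResidueField O)]
  [instCharZero : CharZero O]
  hp : (p : O) ∈ IsLocalRing.maximalIdeal O
  /-- the point -/
  ψ : T →+* O
  isLocalHom : IsLocalHom ψ

attribute [instance] DVRPoint.instCommRing DVRPoint.instIsDomain DVRPoint.instDVR
  DVRPoint.instComplete DVRPoint.instFinite DVRPoint.instCharZero

variable {p : ℕ} {N : ℕ} [NeZero N] {S : Finset ℕ}
  {𝒪 : Type} [CommRing 𝒪] [IsDomain 𝒪] [IsDiscreteValuationRing 𝒪]
  [IsAdicComplete (IsLocalRing.maximalIdeal 𝒪) 𝒪]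
  {θ : CuspForm.heckeAlgebra N 2 (↑S : Set ℕ) →+* IsLocalRing.ResidueField 𝒪}
  {T : Type} [CommRing T] [IsLocalRing T] [IsNoetherianRing T]
  [IsAdicComplete (IsLocalRing.maximalIdeal T) T] [Algebra 𝒪 T] [IsLocalHom (algebraMap 𝒪 T)]
  [Module.Finite 𝒪 T] [Module.Free 𝒪 T]

/-- S31 from a separating family of points carrying representations. -/
theorem isUnramifiedAt_of_points_datum (hdens : FrobDensityLite)
    (hNS : ∀ q : ℕ, q.Prime → q ∣ N → q ∈ S)
    (H : CuspForm.HeckeGaloisRepDatum N (↑S : Set ℕ) 𝒪 θ T) (q : ℕ)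
    {ι : Type*} (O : ι → Type) [∀ i, CommRing (O i)] [∀ i, IsLocalRing (O i)]
    [∀ i, IsNoetherianRing (O i)]
    (ψ : ∀ i, T →+* O i) (hloc : ∀ i, IsLocalHom (ψ i))
    (hinj : ∀ x : T, (∀ i, ψ i x = 0) → x = 0)
    (ρ' : ∀ i, GaloisRepAdic (O i))
    (hfrob : ∀ i, ∀ (ℓ : ℕ) (hℓ : ℓ.Prime) (hℓN : ¬ ℓ ∣ N) (hℓS : ℓ ∉ (↑S : Set ℕ)),
      ∀ A : ValuationSubring (AlgebraicClosure ℚ), A.LiesOverPrime ℓ →
        ∀ σ : GQ, A.IsFrobeniusAt σ ℓ →
          LinearMap.charpoly ((ρ' i).ρ σ) =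
            X ^ 2 - C (ψ i (H.π (CuspForm.heckeAlgebra.T hℓ hℓN hℓS))) * X + C ((ℓ : O i)))
    (hunr : ∀ i, (ρ' i).IsUnramifiedAt q) :
    H.ρ.IsUnramifiedAt q := by
  refine isUnramifiedAt_of_points hdens H.ρ H.residual_absIrr S q O ψ hloc hinj ρ' ?_ hunr
  intro i ℓ hℓ hℓS A hA σ hσ
  have hℓN : ¬ ℓ ∣ N := fun h => hℓS (hNS ℓ hℓ h)
  have hℓS' : ℓ ∉ (↑S : Set ℕ) := fun h => hℓS (Finset.mem_coe.1 h)
  rw [hfrob i ℓ hℓ hℓN hℓS' A hA σ hσ, H.charpoly_frob ℓ hℓ hℓN hℓS' A hA σ hσ]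
  simp [Polynomial.map_sub, Polynomial.map_add, Polynomial.map_mul, Polynomial.map_pow]

/-- **S31 from S30**, Frobenius density and separation of `T` by points. -/
theorem isUnramifiedAt_of_S30 (hS30 : S30Statement) (hdens : FrobDensityLite)
    (hp : p.Prime) (hpS : p ∈ S) (hNS : ∀ q : ℕ, q.Prime → q ∣ N → q ∈ S)
    (H : CuspForm.HeckeGaloisRepDatum N (↑S : Set ℕ) 𝒪 θ T)
    (hsep : ∀ x : T, (∀ P : DVRPoint p T, P.ψ x = 0) → x = 0)
    (q : ℕ) (hq : q.Prime) (hqS : q ∉ S) :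
    H.ρ.IsUnramifiedAt q := by
  classical
  have : Fact p.Prime := ⟨hp⟩
  have hqN : ¬ q ∣ N := fun h => hqS (hNS q hq h)
  have hqp : q ≠ p := fun h => hqS (h ▸ hpS)
  -- apply S30 at every point
  have key : ∀ P : DVRPoint p T, ∃ (O'' : Type) (_ : CommRing O'') (_ : IsLocalRing O'')
      (_ : IsNoetherianRing O'') (φ : T →+* O''), IsLocalHom φ ∧
      (∀ x, φ x = 0 → P.ψ x = 0) ∧
      ∃ ρ : GaloisRepAdic O'',
        (∀ (ℓ : ℕ) (hℓ : ℓ.Prime) (hℓN : ¬ ℓ ∣ N) (hℓS : ℓ ∉ (↑S : Set ℕ)),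
          ∀ A : ValuationSubring (AlgebraicClosure ℚ), A.LiesOverPrime ℓ →
            ∀ σ : GQ, A.IsFrobeniusAt σ ℓ →
              LinearMap.charpoly (ρ.ρ σ) =
                X ^ 2 - C (φ (H.π (CuspForm.heckeAlgebra.T hℓ hℓN hℓS))) * X + C ((ℓ : O''))) ∧
        ρ.IsUnramifiedAt q := by
    intro P
    obtain ⟨O'', i1, i2, i3, i4, i5, i6, i7, i8, i9, hinj, ρ, hρ, hunr⟩ :=
      hS30 p N S hpS hNS P.O P.hp (P.ψ.comp H.π)
    have := P.isLocalHom
    refine ⟨O'', i1, inferInstance, inferInstance, (algebraMap P.O O'').comp P.ψ, ?_, ?_, ρ, ?_,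
      hunr q hq hqN hqp⟩
    · exact RingHom.isLocalHom_comp _ _
    · intro x hx
      rw [RingHom.comp_apply] at hx
      exact hinj (by rw [hx, map_zero])
    · intro ℓ hℓ hℓN hℓS A hA σ hσ
      exact hρ ℓ hℓ hℓN hℓS A hA σ hσ
  choose O'' i1 i2 i3 φ hφloc hφker ρ' hρ' hunr using key
  exact isUnramifiedAt_of_points_datum hdens hNS H q O'' φ hφloc
    (fun x hx => hsep x fun P => hφker P x (hx P)) ρ' hρ' hunr

end Fermat.Agent.S31
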