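import Mathlib
import Fermat.Agent.S31.Reduction
import Fermat.Agent.S31.General
import Fermat.Agent.F3.FrobDensityLiteFinal

/-!
# S31 from S30 and the separation of the Hecke algebra by finitely many DVR points
(owner: helper62)

`HeckeDVRSeparation p N S`: there are finitely many ring homomorphisms from the Hecke algebra
`𝕋 = heckeAlgebra N 2 S` to complete discrete valuation rings of characteristic zero with finite
residue field of characteristic `p`, which separate `𝕋` uniformly for the `p`-adic topology.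
(This is a statement about `𝕋` only; it follows from the semisimplicity of `𝕋 ⊗ ℚ`.)

Main result: `S31Statement_of_S30`: the frozen statement of S31 (all `𝒪`, all `T`) follows from
the frozen statement of S30 and `HeckeDVRSeparation`.
-/

namespace Fermat.Agent.S31

open Polynomial Fermat.Agent.F3 Fermat.Agent.TraceRigidity IsDiscreteValuationRing

section Transfer

variable {O O' : Type*} [CommRing O] [IsDomain O] [IsDiscreteValuationRing O]
  [CommRing O'] [IsDomain O'] [IsDiscreteValuationRing O']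

lemma mem_maximalIdeal_pow_iff (x : O) (n : ℕ) :
    x ∈ IsLocalRing.maximalIdeal O ^ n ↔ (n : ℕ∞) ≤ addVal O x := by
  obtain ⟨ϖ, hϖ⟩ := exists_irreducible O
  rw [Irreducible.maximalIdeal_eq hϖ, Ideal.span_singleton_pow, Ideal.mem_span_singleton,
    ← addVal_le_iff_dvd, hϖ.addVal_pow]

/-- Powers of the maximal ideal of an extension contract into powers of the maximal ideal. -/
lemma exists_pow_contract (φ : O →+* O') (hφ : Function.Injective φ) (m : ℕ) :
    ∃ m' : ℕ, ∀ x : O, φ x ∈ IsLocalRing.maximalIdeal O' ^ m' →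
      x ∈ IsLocalRing.maximalIdeal O ^ m := by
  obtain ⟨ϖ, hϖ⟩ := exists_irreducible O
  have hϖ0 : φ ϖ ≠ 0 := fun h => hϖ.ne_zero (hφ (by rw [h, map_zero]))
  obtain ⟨e, he⟩ : ∃ e : ℕ, addVal O' (φ ϖ) = e := by
    have h1 : addVal O' (φ ϖ) ≠ ⊤ := fun h => hϖ0 (addVal_eq_top_iff.1 h)
    exact ⟨(addVal O' (φ ϖ)).toNat, (ENat.natCast_toNat h1).symm⟩
  refine ⟨m * e + 1, fun x hx => ?_⟩
  by_contra hxm
  have hx0 : x ≠ 0 := fun h => hxm (by rw [h]; exact Ideal.zero_mem _)
  obtain ⟨k, u, rfl⟩ := eq_unit_mul_pow_irreducible hx0 hϖ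
  have hk : k < m := by
    by_contra hkm
    push Not at hkm
    apply hxm
    rw [mem_maximalIdeal_pow_iff, addVal_def' u hϖ k]
    exact_mod_cast hkm
  rw [mem_maximalIdeal_pow_iff, map_mul, map_pow, addVal_mul, addVal_pow, he] at hx
  have hu : addVal O' (φ (u : O)) = 0 := by
    rw [addVal_eq_zero_iff]
    exact (u.isUnit).map φ
  rw [hu, zero_add] at hx
  have h2 : ((m * e + 1 : ℕ) : ℕ∞) ≤ ((k * e : ℕ) : ℕ∞) := by
    simpa [nsmul_eq_mul] using hx
  have h3 : m * e + 1 ≤ k * e := by exact_mod_cast h2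
  have h4 : k * e ≤ m * e := Nat.mul_le_mul_right e hk.le
  omega

end Transfer

/-- A point of the Hecke algebra in a complete discrete valuation ring of characteristic zero
with finite residue field of characteristic `p`. -/
structure HeckeDVRPoint (p N : ℕ) [NeZero N] (S : Finset ℕ) : Type 1 where
  /-- the coefficient ring -/
  O : Type
  [instCommRing : CommRing O]
  [instIsDomain : IsDomain O]
  [instDVR : IsDiscreteValuationRing O]
  [instComplete : IsAdicComplete (IsLocalRing.maximalIdeal O) O]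
  [instFinite : Finite (IsLocalRing.ResidueField O)]
  [instCharZero : CharZero O]
  hp : (p : O) ∈ IsLocalRing.maximalIdeal O
  /-- the eigen-system -/
  χ : CuspForm.heckeAlgebra N 2 (↑S : Set ℕ) →+* O

attribute [instance] HeckeDVRPoint.instCommRing HeckeDVRPoint.instIsDomain
  HeckeDVRPoint.instDVR HeckeDVRPoint.instComplete HeckeDVRPoint.instFinite
  HeckeDVRPoint.instCharZero

/-- Finitely many DVR points separate the Hecke algebra uniformly for the `p`-adic topology. -/
def HeckeDVRSeparation (p N : ℕ) [NeZero N] (S : Finset ℕ) : Prop :=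
  ∃ (d : ℕ) (P : Fin d → HeckeDVRPoint p N S), ∀ r : ℕ, ∃ m : ℕ,
    ∀ X : CuspForm.heckeAlgebra N 2 (↑S : Set ℕ),
      (∀ i, (P i).χ X ∈ IsLocalRing.maximalIdeal (P i).O ^ m) →
        ∃ Y : CuspForm.heckeAlgebra N 2 (↑S : Set ℕ), X = (p : CuspForm.heckeAlgebra N 2 _) ^ r * Y

variable {p : ℕ} {N : ℕ} [NeZero N] {S : Finset ℕ}

/-- S30 turns DVR points of the Hecke algebra into points carrying representations. -/
theorem separatingPoints_of_S30 (hS30 : S30Statement) (hp : p.Prime) (hpS : p ∈ S)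
    (hNS : ∀ q : ℕ, q.Prime → q ∣ N → q ∈ S) (hsep : HeckeDVRSeparation p N S)
    (q : ℕ) (hq : q.Prime) (hqS : q ∉ S) : SeparatingPoints p N S q := by
  classical
  have : Fact p.Prime := ⟨hp⟩
  have hqN : ¬ q ∣ N := fun h => hqS (hNS q hq h)
  have hqp : q ≠ p := fun h => hqS (h ▸ hpS)
  obtain ⟨d, P, hP⟩ := hsep
  have key : ∀ i : Fin d, ∃ Q : HeckePoint N S q,
      ∀ m : ℕ, ∃ m' : ℕ, ∀ X : CuspForm.heckeAlgebra N 2 (↑S : Set ℕ),
        Q.χ X ∈ IsLocalRing.maximalIdeal Q.O ^ m' →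
          (P i).χ X ∈ IsLocalRing.maximalIdeal (P i).O ^ m := by
    intro i
    obtain ⟨O'', i1, i2, i3, i4, i5, i6, i7, i8, i9, hinj, ρ, hρ, hunr⟩ :=
      hS30 p N S hpS hNS (P i).O (P i).hp (P i).χ
    refine ⟨{ O := O'', χ := (algebraMap (P i).O O'').comp (P i).χ, ρ := ρ,
              charpoly_frob := fun ℓ hℓ hℓN hℓS A hA σ hσ => hρ ℓ hℓ hℓN hℓS A hA σ hσ,
              unram := hunr q hq hqN hqp }, fun m => ?_⟩
    obtain ⟨m', hm'⟩ := exists_pow_contract (algebraMap (P i).O O'') hinj m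
    exact ⟨m', fun X hX => hm' _ hX⟩
  choose Q hQ using key
  refine ⟨d, Q, fun r => ?_⟩
  obtain ⟨m, hm⟩ := hP r
  choose m' hm' using fun i => hQ i m
  refine ⟨Finset.univ.sup m', fun X hX => hm X fun i => hm' i X ?_⟩
  exact Ideal.pow_le_pow_right (Finset.le_sup (Finset.mem_univ i)) (hX i)

/-- The frozen statement of S31, as a proposition. -/
def S31Statement : Prop :=
  ∀ {p : ℕ} {N : ℕ} [NeZero N] {S : Finset ℕ}
    {𝒪 : Type} [CommRing 𝒪] [IsDomain 𝒪] [IsDiscreteValuationRing 𝒪]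
    [IsAdicComplete (IsLocalRing.maximalIdeal 𝒪) 𝒪]
    {θ : CuspForm.heckeAlgebra N 2 (↑S : Set ℕ) →+* IsLocalRing.ResidueField 𝒪}
    {T : Type} [CommRing T] [IsLocalRing T] [IsNoetherianRing T]
    [IsAdicComplete (IsLocalRing.maximalIdeal T) T] [Algebra 𝒪 T] [IsLocalHom (algebraMap 𝒪 T)]
    [Module.Finite 𝒪 T] [Module.Free 𝒪 T]
    (_hp : p.Prime) (_hp𝒪 : (p : 𝒪) ∈ IsLocalRing.maximalIdeal 𝒪) (_hpS : p ∈ S)
    (_hNS : ∀ q : ℕ, q.Prime → q ∣ N → q ∈ S)
    (H : CuspForm.HeckeGaloisRepDatum N (↑S : Set ℕ) 𝒪 θ T)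
    (q : ℕ) (_hq : q.Prime) (_hqS : q ∉ S), H.ρ.IsUnramifiedAt q

/-- **S31 from S30** and the separation property of the Hecke algebra. -/
theorem S31Statement_of_S30 (hS30 : S30Statement)
    (hsep : ∀ (p N : ℕ) [NeZero N] (S : Finset ℕ), p.Prime → p ∈ S →
      (∀ q : ℕ, q.Prime → q ∣ N → q ∈ S) → HeckeDVRSeparation p N S) :
    S31Statement := by
  intro p N _ S 𝒪 _ _ _ _ θ T _ _ _ _ _ _ _ _ hp hp𝒪 hpS hNS H q hq hqS
  exact isUnramifiedAt_of_separatingPoints frobDensityLite hp𝒪 hNS H q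
    (separatingPoints_of_S30 hS30 hp hpS hNS (hsep p N S hp hpS hNS) q hq hqS)

end Fermat.Agent.S31
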