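import Mathlib
import Fermat.Agent.S31.FromS30
import Fermat.Agent.Lib.DVRPoints.Reduced
import Fermat.Agent.Lib.Petersson.Main
import Fermat.Agent.S22

/-!
# The Hecke algebra is separated by finitely many DVR points; S31 from S30
(owner: helper62)

`heckeDVRSeparation`: `HeckeDVRSeparation p N S` holds (unconditionally) when `S` contains the
primes dividing `N`.  Inputs: the Hecke algebra is a finitely generated `ℤ`-module (S22), it is
reduced (Petersson product, `Fermat.Agent.Pet.isReduced_heckeAlgebra`), and the abstract theorem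
`Fermat.Agent.DVRPoints.dvrSeparation_of_isReduced`.

`S31Statement_of_S30Statement`: the frozen statement of S31 follows from that of S30.
-/

namespace Fermat.Agent.S31

open Fermat.Agent.DVRPoints

/-- The Hecke algebra is torsion-free over `ℤ`. -/
theorem heckeAlgebra_torsionFree (N : ℕ) [NeZero N] (k : ℤ) (S : Set ℕ) (n : ℕ)
    (x : CuspForm.heckeAlgebra N k S) (hn : n ≠ 0)
    (hx : (n : CuspForm.heckeAlgebra N k S) * x = 0) : x = 0 := by
  have h1 : ((n : CuspForm.heckeAlgebra N k S) * x :
      CuspForm.heckeAlgebra N k S).1 = 0 := by rw [hx]; rfl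
  have h2 : (n : Module.End ℂ (CuspForm (CongruenceSubgroup.Gamma0 N) k)) * x.1 = 0 := h1
  apply Subtype.ext
  change x.1 = 0
  ext f : 1
  have h3 := LinearMap.congr_fun h2 f
  have h4 : (n : ℂ) • (x.1 f) = 0 := by
    have : ((n : Module.End ℂ (CuspForm (CongruenceSubgroup.Gamma0 N) k)) * x.1) f
        = (n : ℂ) • (x.1 f) := by
      rw [Module.End.mul_apply]
      simp [Nat.cast_smul_eq_nsmul]
    rw [← this, h3]
    rfl
  rcases smul_eq_zero.1 h4 with h5 | h5
  · exact absurd (by exact_mod_cast h5) hn
  · exact h5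

/-- The Hecke algebra away from the level is separated, uniformly for the `p`-adic topology, by
finitely many points in complete discrete valuation rings. -/
theorem heckeDVRSeparation (p N : ℕ) [NeZero N] (S : Finset ℕ) (hp : p.Prime)
    (hNS : ∀ q : ℕ, q.Prime → q ∣ N → q ∈ S) : HeckeDVRSeparation p N S := by
  have : Module.Finite ℤ (CuspForm.heckeAlgebra N 2 (↑S : Set ℕ)) :=
    Fermat.Agent.S22.result N 2 _
  have : IsReduced (CuspForm.heckeAlgebra N 2 (↑S : Set ℕ)) :=
    Fermat.Agent.Pet.isReduced_heckeAlgebra N 2 _ (fun q hq hqN => by exact_mod_cast hNS q hq hqN)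
  obtain ⟨d, P, hP⟩ := dvrSeparation_of_isReduced (CuspForm.heckeAlgebra N 2 (↑S : Set ℕ))
    (fun n x hn hx => heckeAlgebra_torsionFree N 2 _ n x hn hx) p hp
  exact ⟨d, fun i => { O := (P i).O, hp := (P i).hp, χ := (P i).χ }, hP⟩

/-- **S31 from S30**: the frozen statement of S31 follows from the frozen statement of S30. -/
theorem S31Statement_of_S30Statement (hS30 : S30Statement) : S31Statement :=
  S31Statement_of_S30 hS30 fun p N _ S hp _ hNS => heckeDVRSeparation p N S hp hNS

end Fermat.Agent.S31
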