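import Mathlib
import Fermat.Agent.S31.DVRPoints
import Fermat.Agent.S30.Final

/-!
# S31 from the interface propositions of cluster A
(owner: helper62)

`s31Statement_of_S30At`: the frozen statement of S31 from `S30At N` for all `N`.
`s31Statement_of_interfaces`: the frozen statement of S31 from the six interface propositions of
cluster A at all levels (the same hypotheses as `Fermat.Agent.S30.s30At_of_interfaces`).
-/

namespace Fermat.Agent.S31

/-- the frozen S30 statement from the level-wise statements -/
theorem s30Statement_of_S30At (h : ∀ (N : ℕ) [NeZero N], Fermat.Agent.S30.S30At N) :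
    S30Statement :=
  fun p _ N _ S hpS hNS 𝒪' _ _ _ _ _ _ hp𝒪' χ => h N p S hpS hNS 𝒪' hp𝒪' χ

/-- **S31 from S30 at all levels.** -/
theorem s31Statement_of_S30At (h : ∀ (N : ℕ) [NeZero N], Fermat.Agent.S30.S30At N) :
    S31Statement :=
  S31Statement_of_S30Statement (s30Statement_of_S30At h)

/-- **S31 from the interface propositions of cluster A.** -/
theorem s31Statement_of_interfaces
    (hE : ∀ (N : ℕ) [NeZero N], Fermat.Agent.S30.EigenclassPadic N)
    (hFin : ∀ (N : ℕ) [NeZero N], F3.TorsionFinite N)
    (hUnr : ∀ (N : ℕ) [NeZero N], F3.TorsionUnramified N)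
    (hFrob : ∀ (N : ℕ) [NeZero N], F3.TorsionFrobQuadratic N)
    (hOpen : ∀ (N : ℕ) [NeZero N], F3.TorsionOpenStab N)
    (hComm : ∀ (N : ℕ) [NeZero N], F3.HeckeGaloisComm N) :
    S31Statement :=
  s31Statement_of_S30At fun N _ =>
    Fermat.Agent.S30.s30At_of_interfaces N (hE N) (hFin N) (hUnr N) (hFrob N) (hOpen N) (hComm N)

end Fermat.Agent.S31
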